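import Fermat.Agent.GR.Defs
import Fermat.Agent.S24.Zeros
import Fermat.Agent.S24.Degree
import Fermat.Prelude.Def_ModularCurve_ReductionModL

/-!
# GR-S: bridge between `modularFunctionFieldBar N` and `FF ℚ̄ N`, and the facts on the
function field over `ℚ̄` imported from S24.
-/

set_option autoImplicit false

noncomputable section

open ModularCurve AlgebraicCurve

namespace Fermat.Agent.GR.S

/-- `ℚ̄`. -/
abbrev Kb : Type := AlgebraicClosure ℚ

theorem image_coeffEmb_divisorExpansions (N : ℕ) :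
    (⇑(coeffEmb Kb) '' divisorExpansions N) = divisorExpansionsC Kb N := by
  ext x
  constructor
  · rintro ⟨y, ⟨d, hd, hdN, rfl⟩, rfl⟩
    refine ⟨d, hd, hdN, ?_⟩
    have h1 : (jq : LaurentSeries ℚ) = jqModC ℚ := rfl
    rw [h1, coeffEmb, coeffMap_qExpand, coeffMap_jqModC]
  · rintro ⟨d, hd, hdN, rfl⟩
    refine ⟨qExpand ℚ d jq, ⟨d, hd, hdN, rfl⟩, ?_⟩
    have h1 : (jq : LaurentSeries ℚ) = jqModC ℚ := rfl
    rw [h1, coeffEmb, coeffMap_qExpand, coeffMap_jqModC]

/-- The two descriptions of the function field of `X₀(N)` over `ℚ̄` agree. -/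
theorem bar_eq_FF (N : ℕ) : modularFunctionFieldBar N = FF Kb N := by
  rw [Fermat.Agent.S24.modularFunctionFieldBar_eq_adjoin, image_coeffEmb_divisorExpansions]
  rfl

theorem hasPrincipalDivisors_bar (N : ℕ) [NeZero N] :
    HasPrincipalDivisors Kb (modularFunctionFieldBar N) :=
  Fermat.Agent.S24.hasPrincipalDivisors (Fermat.Agent.S24.jF N)
    (Fermat.Agent.S24.transcendental_jF N)

theorem place_deg_bar (N : ℕ) [NeZero N] (v : Place Kb (modularFunctionFieldBar N)) :
    v.deg = 1 :=
  Fermat.Agent.S24.place_deg_eq_one (Fermat.Agent.S24.jF N)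
    (Fermat.Agent.S24.transcendental_jF N) v

end Fermat.Agent.GR.S
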