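import Fermat.Prelude.Def_HeckeGalois_EichlerShimura
set_option autoImplicit false
open ModularCurve
namespace Fermat.Agent.GR.S

/-- inertia is normalised by the decomposition group. -/
theorem Abs37_conj_mem {K L : Type*} [Field K] [Field L] [Algebra K L] (A : ValuationSubring L)
    {δ τ : L ≃ₐ[K] L} (hδ : δ ∈ A.decompositionSubgroup K) (hτ : τ ∈ A.inertiaSubgroupIn K) :
    δ * τ * δ⁻¹ ∈ A.inertiaSubgroupIn K := by
  unfold ValuationSubring.inertiaSubgroupIn at hτ ⊢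
  obtain ⟨t, ht, rfl⟩ := Subgroup.mem_map.mp hτ
  have hn : (A.inertiaSubgroup K).Normal := by
    unfold ValuationSubring.inertiaSubgroup
    exact MonoidHom.normal_ker _
  have h1 := hn.conj_mem t ht (⟨δ, hδ⟩ : A.decompositionSubgroup K)
  have h2 := Subgroup.mem_map_of_mem (A.decompositionSubgroup K).subtype h1
  rw [map_mul, map_mul, map_inv] at h2
  exact h2

/-- two Frobenius elements differ by an element of inertia. -/
theorem Abs37_frob_mem {K L : Type*} [Field K] [Field L] [Algebra K L] (A : ValuationSubring L)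
    {ℓ : ℕ} {σ₀ σ : L ≃ₐ[K] L} (hσ₀ : A.IsFrobeniusAt σ₀ ℓ) (hσ : A.IsFrobeniusAt σ ℓ) :
    σ₀⁻¹ * σ ∈ A.inertiaSubgroupIn K := by
  unfold ValuationSubring.inertiaSubgroupIn
  refine Subgroup.mem_map.mpr
    ⟨⟨σ₀, hσ₀.mem_decompositionSubgroup⟩⁻¹ * ⟨σ, hσ.mem_decompositionSubgroup⟩, ?_, ?_⟩
  swap
  · rw [map_mul, map_inv]
    rfl
  unfold ValuationSubring.inertiaSubgroup
  rw [MonoidHom.mem_ker]
  ext x
  change (⟨σ₀, hσ₀.mem_decompositionSubgroup⟩⁻¹ * ⟨σ, hσ.mem_decompositionSubgroup⟩ :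
    A.decompositionSubgroup K) • x = x
  rw [mul_smul, hσ.smul_residue_eq, ← hσ₀.smul_residue_eq, inv_smul_smul]

theorem exists_specialization_of_subgroup
    {K L : Type*} [Field K] [Field L] [Algebra K L]
    (p : ℕ) (J : Type) [AddCommGroup J] [Module HeckeAlg J]
    [DistribMulAction (L ≃ₐ[K] L) J] [SMulCommClass (L ≃ₐ[K] L) HeckeAlg J]
    (A : ValuationSubring L) (ℓ : ℕ) (hℓ : ℓ.Prime)
    (σ₀ : L ≃ₐ[K] L) (hσ₀ : A.IsFrobeniusAt σ₀ ℓ)
    (K₁ : AddSubgroup J)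
    (h1 : ∀ τ ∈ A.inertiaSubgroupIn K, ∀ x : J, τ • x - x ∈ K₁)
    (h2 : ∀ x : J, σ₀ • σ₀ • x - heckeGen ⟨ℓ, hℓ⟩ • (σ₀ • x) + ℓ • x ∈ K₁)
    (h3 : ∀ x ∈ K₁, (∃ n : ℕ, p ^ n • x = 0) → x = 0) :
    ∃ (J' : Type) (_ : AddCommGroup J') (_ : Module HeckeAlg J') (sp : J →+ J')
      (F : J' →+ J'),
      IsSpecialization (K := K) p J J' A ℓ sp F ∧ SpecialFibreRelation J' ℓ hℓ F := by
  have hsymm : SMulCommClass HeckeAlg (L ≃ₐ[K] L) J := SMulCommClass.symm _ _ _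
  let K₀ : Submodule HeckeAlg J :=
    { carrier := {x | ∀ (T : HeckeAlg) (i : ℕ), T • (σ₀ ^ i • x) ∈ K₁}
      add_mem' := by
        intro x y hx hy T i
        rw [smul_add, smul_add]
        exact K₁.add_mem (hx T i) (hy T i)
      zero_mem' := by
        intro T i
        rw [smul_zero, smul_zero]
        exact K₁.zero_mem
      smul_mem' := by
        intro c x hx T i
        rw [smul_comm (σ₀ ^ i) c x, ← mul_smul]
        exact hx (T * c) i }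
  have hK₀ : ∀ x : J, x ∈ K₀ ↔ ∀ (T : HeckeAlg) (i : ℕ), T • (σ₀ ^ i • x) ∈ K₁ := fun _ => Iff.rfl
  let φ : J →ₗ[HeckeAlg] J :=
    { toFun := fun x => σ₀ • x
      map_add' := fun x y => smul_add σ₀ x y
      map_smul' := fun c x => smul_comm σ₀ c x }
  have hφ : ∀ x, φ x = σ₀ • x := fun _ => rfl
  have hstab : ∀ x ∈ K₀, σ₀ • x ∈ K₀ := by
    intro x hx T i
    rw [← mul_smul, ← pow_succ]
    exact hx T (i + 1)
  have hle : K₀ ≤ K₀.comap φ := fun x hx => hstab x hx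
  have hin : ∀ τ ∈ A.inertiaSubgroupIn K, ∀ x : J, τ • x - x ∈ K₀ := by
    intro τ hτ x T i
    have hδ : σ₀ ^ i ∈ A.decompositionSubgroup K :=
      Subgroup.pow_mem _ hσ₀.mem_decompositionSubgroup i
    have h := h1 _ (Abs37_conj_mem A hδ hτ) (T • (σ₀ ^ i • x))
    have e : (σ₀ ^ i * τ * (σ₀ ^ i)⁻¹) • (T • (σ₀ ^ i • x)) = T • (σ₀ ^ i • (τ • x)) := by
      rw [smul_comm _ T, mul_smul, mul_smul, inv_smul_smul]
    rw [e] at h
    rw [smul_sub, smul_sub]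
    exact h
  refine ⟨J ⧸ K₀, inferInstance, inferInstance, K₀.mkQ.toAddMonoidHom,
    (K₀.mapQ K₀ φ hle).toAddMonoidHom, ⟨?_, ?_, ?_, ?_⟩, ?_⟩
  · intro T x
    rfl
  · intro σ hσ x
    exact (Submodule.Quotient.eq K₀).mpr (hin σ hσ x)
  · intro σ hσ x
    change Submodule.Quotient.mk (σ • x) = Submodule.Quotient.mk (σ₀ • x)
    refine (Submodule.Quotient.eq K₀).mpr ?_
    have h := hstab _ (hin _ (Abs37_frob_mem A hσ₀ hσ) x)
    rwa [smul_sub, mul_smul, smul_inv_smul] at h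
  · intro x hx h0
    have hxK : x ∈ K₀ := (Submodule.Quotient.mk_eq_zero K₀).mp h0
    have := hxK 1 0
    rw [pow_zero, one_smul, one_smul] at this
    exact h3 x this hx
  · intro y
    obtain ⟨x, rfl⟩ := Submodule.Quotient.mk_surjective K₀ y
    change Submodule.Quotient.mk (σ₀ • σ₀ • x - heckeGen ⟨ℓ, hℓ⟩ • (σ₀ • x) + ℓ • x) = 0
    refine (Submodule.Quotient.mk_eq_zero K₀).mpr ?_
    intro T i
    have hc : ∀ w : J, σ₀ ^ i • (σ₀ • w) = σ₀ • (σ₀ ^ i • w) := by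
      intro w
      rw [← mul_smul, ← mul_smul, ← pow_succ, ← pow_succ']
    have h := h2 (T • (σ₀ ^ i • x))
    have e : T • (σ₀ ^ i • (σ₀ • σ₀ • x - heckeGen ⟨ℓ, hℓ⟩ • (σ₀ • x) + ℓ • x)) =
        σ₀ • σ₀ • (T • (σ₀ ^ i • x)) - heckeGen ⟨ℓ, hℓ⟩ • (σ₀ • (T • (σ₀ ^ i • x))) +
          ℓ • (T • (σ₀ ^ i • x)) := by
      rw [smul_add, smul_sub, smul_add, smul_sub, hc, hc, smul_comm (σ₀ ^ i) (heckeGen ⟨ℓ, hℓ⟩),
        hc, smul_comm (σ₀ ^ i) ℓ x, smul_comm T ℓ, smul_comm T σ₀, smul_comm T σ₀,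
        smul_comm T (heckeGen ⟨ℓ, hℓ⟩), smul_comm T σ₀]
    rw [e]
    exact h

end Fermat.Agent.GR.S
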