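import Fermat.Agent.GR.Defs
import Fermat.Agent.GR.C.Place1
set_option autoImplicit false
noncomputable section
open ModularCurve AlgebraicCurve
namespace Fermat.Agent.GR.S
variable (k : Type*) [Field k] (N : ℕ)

theorem CuspPlace_order_jqModC : (jqModC k).order = -1 := by
  have h1 : (jqModC k).coeff (-1) = 1 := coeff_jqModC_neg_one k
  have hne : jqModC k ≠ 0 := by
    intro h
    rw [h] at h1
    simp at h1
  apply le_antisymm
  · exact HahnSeries.order_le_of_coeff_ne_zero (by rw [h1]; exact one_ne_zero)
  · rw [HahnSeries.le_order_iff_forall hne]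
    intro j hj
    exact coeff_jqModC_of_lt k hj

/-- There is a place `∞` of `FF k N` of degree one whose order function is the `q`-adic order. -/
theorem exists_cuspPlace :
    ∃ v : Place k (FF k N), v.deg = 1 ∧
      ∀ f : FF k N, f ≠ 0 → v.ord f = (f : LaurentSeries k).order := by
  obtain ⟨v, hv, hdeg⟩ := C.Place1_inf (F := FF k N) (x := ⟨jqModC k, jqModC_mem_full k N⟩)
    (CuspPlace_order_jqModC k)
  exact ⟨v, hdeg, fun f _ => hv f⟩
end Fermat.Agent.GR.S
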