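import Fermat.Agent.GR.S.Bridge
set_option autoImplicit false
noncomputable section
open ModularCurve AlgebraicCurve IsLocalRing
namespace Fermat.Agent.GR.S
variable (A : ValuationSubring Kb) (N : ℕ)
/-- every polynomial in the `j(q^d)` over the residue field lifts to a polynomial in the `j(q^d)` over `A`. -/
theorem exists_lift_of_mem_adjoin {x : LaurentSeries (ResidueField A)}
    (hx : x ∈ Algebra.adjoin (ResidueField A) (divisorExpansionsC (ResidueField A) N)) :
    ∃ y : LaurentSeries A, coeffMap (residue A) y = x ∧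
      coeffMap A.subtype y ∈ modularFunctionFieldBar N := by
  induction hx using Algebra.adjoin_induction with
  | mem x hx =>
    obtain ⟨d, hd0, hdN, rfl⟩ := hx
    refine ⟨qExpand A d (jqModC A), ?_, ?_⟩
    · rw [coeffMap_qExpand, coeffMap_jqModC]
    · rw [coeffMap_qExpand, coeffMap_jqModC, bar_eq_FF]
      exact jqModCd_mem_full Kb N hdN
  | algebraMap c =>
    obtain ⟨a, rfl⟩ := residue_surjective c
    refine ⟨HahnSeries.single 0 a, ?_, ?_⟩
    · rw [coeffMap_single, algebraMap_laurentSeries_eq_single]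
    · rw [coeffMap_single, ← algebraMap_laurentSeries_eq_single]
      exact (modularFunctionFieldBar N).algebraMap_mem _
  | add x y _ _ hx hy =>
    obtain ⟨x', rfl, hx'⟩ := hx
    obtain ⟨y', rfl, hy'⟩ := hy
    exact ⟨x' + y', map_add _ _ _, by rw [map_add]; exact add_mem hx' hy'⟩
  | mul x y _ _ hx hy =>
    obtain ⟨x', rfl, hx'⟩ := hx
    obtain ⟨y', rfl, hy'⟩ := hy
    exact ⟨x' * y', map_mul _ _ _, by rw [map_mul]; exact mul_mem hx' hy'⟩
/-- every element of `FF k N` is a quotient of two polynomials in the `j(q^d)`. -/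
theorem exists_div_of_mem_FF {k : Type*} [Field k] {x : LaurentSeries k} (hx : x ∈ FF k N) :
    ∃ a b : LaurentSeries k, a ∈ Algebra.adjoin k (divisorExpansionsC k N) ∧
      b ∈ Algebra.adjoin k (divisorExpansionsC k N) ∧ b ≠ 0 ∧ x = a / b := by
  obtain ⟨r, s, hrs⟩ := (IntermediateField.mem_adjoin_iff k _).mp hx
  have hmem : ∀ r : MvPolynomial (divisorExpansionsC k N) k,
      MvPolynomial.aeval Subtype.val r ∈ Algebra.adjoin k (divisorExpansionsC k N) := by
    intro r
    rw [Algebra.adjoin_eq_range]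
    exact ⟨r, rfl⟩
  by_cases hs : MvPolynomial.aeval Subtype.val s = (0 : LaurentSeries k)
  · refine ⟨0, 1, zero_mem _, one_mem _, one_ne_zero, ?_⟩
    rw [hs, div_zero] at hrs
    rw [zero_div]
    exact hrs
  · exact ⟨_, _, hmem r, hmem s, hs, hrs⟩
end Fermat.Agent.GR.S
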