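import Fermat.Agent.GR.S.Bridge
import Fermat.Agent.GR.S.CuspPlace
import Fermat.Agent.GR.S.Lift

/-!
# GR-S: injectivity of the reduction map on prime-to-`ℓ` torsion from the crux lemma
-/

set_option autoImplicit false
set_option synthInstance.maxHeartbeats 400000

noncomputable section

open ModularCurve AlgebraicCurve IsLocalRing

namespace Fermat.Agent.GR.S

section Crux

variable (A : ValuationSubring Kb)

/-- the crux lemma for an intermediate field `E` of `ℚ̄((q))`. -/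
def CruxFor (E : IntermediateField Kb (LaurentSeries Kb)) (m : ℕ) : Prop :=
  ∀ (a b : LaurentSeries Kb) (ha : a ∈ E) (hb : b ∈ E),
    IsPrim A a → IsInt A b → Cong A a b →
    (∀ v : Place Kb E, (m : ℤ) ∣ v.ord ((⟨a, ha⟩ : E) / ⟨b, hb⟩)) →
    ∃ z : E, z ≠ 0 ∧ (⟨a, ha⟩ : E) = ⟨b, hb⟩ * z ^ m

theorem ne_zero_of_isPrim {a : LaurentSeries Kb} (ha : IsPrim A a) : a ≠ 0 := by
  rintro rfl
  obtain ⟨n, hn⟩ := ha.2
  apply hn
  rw [HahnSeries.coeff_zero]
  simp

theorem ne_zero_of_cong {a b : LaurentSeries Kb} (ha : IsPrim A a) (hab : Cong A a b) :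
    b ≠ 0 := by
  rintro rfl
  obtain ⟨n, hn⟩ := ha.2
  apply hn
  have := hab n
  rwa [HahnSeries.coeff_zero, sub_zero] at this

theorem cruxFor_bar (N m : ℕ)
    (h : ∀ a b : LaurentSeries Kb, a ∈ FF Kb N → b ∈ FF Kb N → IsPrim A a → IsInt A b →
      Cong A a b → IsKummer (N := N) m (a / b) → KummerEquiv N m b a) :
    CruxFor A (modularFunctionFieldBar N) m := by
  rw [bar_eq_FF]
  intro a b ha hb hpa hib hab hdiv
  have ha0 := ne_zero_of_isPrim A hpa
  have hb0 := ne_zero_of_cong A hpa hab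
  obtain ⟨z, hz, hz0, hzeq⟩ := h a b ha hb hpa hib hab
    ⟨div_ne_zero ha0 hb0, div_mem ha hb, fun v => hdiv v⟩
  exact ⟨⟨z, hz⟩, fun h0 => hz0 (congrArg Subtype.val h0), Subtype.ext hzeq⟩

end Crux

section Integral

variable {A : ValuationSubring Kb} {N : ℕ}

local notation "𝔽" => modularFunctionFieldBar N
local notation "𝕜" => ResidueField A
local notation "𝔽'" => modularFunctionFieldFullC (ResidueField A) N

/-- `D` is the divisor of the integral function `y`, whose reduction is a nonzero element of the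
function field in characteristic `ℓ`. -/
def IsDivOf (D : Divisor Kb 𝔽) (y : LaurentSeries A) : Prop :=
  ∃ hy : coeffMap A.subtype y ∈ 𝔽, coeffMap (residue A) y ∈ 𝔽' ∧ coeffMap (residue A) y ≠ 0 ∧
    ∀ P, D P = P.ord (⟨coeffMap A.subtype y, hy⟩ : 𝔽)

theorem mem_integralPrincipalDivisors_iff {D : Divisor Kb 𝔽} :
    D ∈ integralPrincipalDivisors A (residue A) N ↔ ∃ y : LaurentSeries A, IsDivOf D y :=
  Iff.rfl

theorem coeffMap_subtype_injective : Function.Injective (coeffMap A.subtype) := by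
  intro x y hxy
  ext n
  exact congrArg (fun s => s.coeff n) hxy

theorem coeffMap_subtype_ne_zero {y : LaurentSeries A} (h : coeffMap (residue A) y ≠ 0) :
    coeffMap A.subtype y ≠ 0 := by
  intro h0
  apply h
  have : y = 0 := coeffMap_subtype_injective (by rw [h0, map_zero])
  rw [this, map_zero]

theorem IsDivOf.mul {D E : Divisor Kb 𝔽} {y z : LaurentSeries A} (hD : IsDivOf D y)
    (hE : IsDivOf E z) : IsDivOf (D + E) (y * z) := by
  obtain ⟨hy, hyk, hy0, hDy⟩ := hD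
  obtain ⟨hz, hzk, hz0, hEz⟩ := hE
  refine ⟨by rw [map_mul]; exact mul_mem hy hz, by rw [map_mul]; exact mul_mem hyk hzk,
    by rw [map_mul]; exact mul_ne_zero hy0 hz0, fun P => ?_⟩
  rw [Finsupp.add_apply, hDy, hEz, ← P.ord_mul]
  · congr 1
    exact Subtype.ext (map_mul _ _ _).symm
  · exact fun h => coeffMap_subtype_ne_zero hy0 (congrArg Subtype.val h)
  · exact fun h => coeffMap_subtype_ne_zero hz0 (congrArg Subtype.val h)

theorem isDivOf_zero_one : IsDivOf (N := N) (A := A) 0 1 := by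
  refine ⟨by rw [map_one]; exact one_mem _, by rw [map_one]; exact one_mem _,
    by rw [map_one]; exact one_ne_zero, fun P => ?_⟩
  have : (⟨coeffMap A.subtype 1, by rw [map_one]; exact one_mem _⟩ : 𝔽) = 1 :=
    Subtype.ext (map_one _)
  rw [this, P.ord_one]
  rfl

/-- elements of the subgroup generated by the integral principal divisors are differences. -/
theorem exists_sub_of_mem_closure {D : Divisor Kb 𝔽}
    (hD : D ∈ AddSubgroup.closure (integralPrincipalDivisors A (residue A) N)) :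
    ∃ (D₁ D₂ : Divisor Kb 𝔽) (y₁ y₂ : LaurentSeries A), IsDivOf D₁ y₁ ∧ IsDivOf D₂ y₂ ∧
      D = D₁ - D₂ := by
  induction hD using AddSubgroup.closure_induction with
  | mem E hE =>
    obtain ⟨y, hy⟩ := hE
    exact ⟨E, 0, y, 1, hy, isDivOf_zero_one, (sub_zero E).symm⟩
  | zero => exact ⟨0, 0, 1, 1, isDivOf_zero_one, isDivOf_zero_one, (sub_zero 0).symm⟩
  | add E E' _ _ hE hE' =>
    obtain ⟨D₁, D₂, y₁, y₂, h₁, h₂, rfl⟩ := hE
    obtain ⟨D₁', D₂', y₁', y₂', h₁', h₂', rfl⟩ := hE'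
    exact ⟨D₁ + D₁', D₂ + D₂', y₁ * y₁', y₂ * y₂', h₁.mul h₁', h₂.mul h₂', by abel⟩
  | neg E _ hE =>
    obtain ⟨D₁, D₂, y₁, y₂, h₁, h₂, rfl⟩ := hE
    exact ⟨D₂, D₁, y₂, y₁, h₂, h₁, by abel⟩

/-- existence of the divisor of an integral function. -/
theorem exists_isDivOf [NeZero N] (y : LaurentSeries A) (hy : coeffMap A.subtype y ∈ 𝔽)
    (hyk : coeffMap (residue A) y ∈ 𝔽') (hy0 : coeffMap (residue A) y ≠ 0) :
    ∃ D : Divisor Kb 𝔽, IsDivOf D y ∧ Divisor.degree D = 0 := by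
  have := hasPrincipalDivisors_bar N
  obtain ⟨D, hD, hdeg⟩ := HasPrincipalDivisors.exists_divisor (K := Kb)
    (⟨coeffMap A.subtype y, hy⟩ : 𝔽)
    (fun h => coeffMap_subtype_ne_zero hy0 (congrArg Subtype.val h))
  exact ⟨D, ⟨hy, hyk, hy0, hD⟩, hdeg⟩

theorem IsDivOf.degree_eq_zero [NeZero N] {D : Divisor Kb 𝔽} {y : LaurentSeries A}
    (hD : IsDivOf D y) : Divisor.degree D = 0 := by
  obtain ⟨hy, hyk, hy0, hDy⟩ := hD
  obtain ⟨D', ⟨_, _, _, hD'⟩, hdeg⟩ := exists_isDivOf y hy hyk hy0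
  have : D = D' := by
    ext P
    rw [hDy, hD']
  rw [this, hdeg]

end Integral

section Degree

variable {K F : Type*} [Field K] [Field F] [Algebra K F]

theorem degree_pos_of_nonneg (G : Divisor K F) (h : ∀ Q, 0 ≤ G Q) (v : Place K F)
    (hv : 0 < G v) (hdeg : 0 < v.deg) : 0 < Divisor.degree G := by
  have h1 : Divisor.degree G = ∑ Q ∈ G.support, G Q * (Q.deg : ℤ) := by
    simp [Divisor.degree, Finsupp.sum]
  rw [h1]
  have hmem : v ∈ G.support := by
    rw [Finsupp.mem_support_iff]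
    omega
  have h2 : G v * (v.deg : ℤ) ≤ ∑ Q ∈ G.support, G Q * (Q.deg : ℤ) :=
    Finset.single_le_sum (f := fun Q => G Q * (Q.deg : ℤ))
      (fun Q _ => mul_nonneg (h Q) (Int.natCast_nonneg _)) hmem
  have h3 : 0 < G v * (v.deg : ℤ) := mul_pos hv (by exact_mod_cast hdeg)
  omega

end Degree

section Constant

variable {A : ValuationSubring Kb} {N : ℕ} [NeZero N]

local notation "𝔽" => modularFunctionFieldBar N
local notation "𝕜" => ResidueField A
local notation "𝔽'" => modularFunctionFieldFullC (ResidueField A) N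

theorem coeffMap_C' {R S : Type*} [CommRing R] [CommRing S] (f : R →+* S) (c : R) :
    coeffMap f (HahnSeries.C c : LaurentSeries R) = HahnSeries.C (f c) :=
  coeffMap_single f 0 c

theorem C_mem_intermediate {k : Type*} [Field k] (E : IntermediateField k (LaurentSeries k))
    (c : k) : (HahnSeries.C c : LaurentSeries k) ∈ E := by
  have h : (HahnSeries.C c : LaurentSeries k) = algebraMap k (LaurentSeries k) c :=
    (algebraMap_laurentSeries_eq_single k c).symm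
  rw [h]
  exact E.algebraMap_mem c

open Fermat.Agent.S24.Zeros in
/-- Two integral functions whose reductions have the same divisor have proportional reductions. -/
theorem exists_const_of_ord_eq
    {r : Place Kb 𝔽 → Place 𝕜 𝔽'} (hr : IsPlaceReductionAlong A (residue A) N r)
    {D₁ D₂ : Divisor Kb 𝔽} {y₁ y₂ : LaurentSeries A} (h₁ : IsDivOf D₁ y₁) (h₂ : IsDivOf D₂ y₂)
    (hord : ∀ Q : Place 𝕜 𝔽', Q.ord (⟨_, h₁.2.1⟩ : 𝔽') = Q.ord (⟨_, h₂.2.1⟩ : 𝔽')) :
    ∃ c : A, residue A c ≠ 0 ∧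
      coeffMap (residue A) y₁ = coeffMap (residue A) (HahnSeries.C c * y₂) := by
  classical
  obtain ⟨v, hvdeg, hvord⟩ := exists_cuspPlace 𝕜 N
  have hg₁0 : coeffMap (residue A) y₁ ≠ 0 := h₁.2.2.1
  have hg₂0 : coeffMap (residue A) y₂ ≠ 0 := h₂.2.2.1
  set f₁ : 𝔽' := ⟨_, h₁.2.1⟩ with hf₁
  set f₂ : 𝔽' := ⟨_, h₂.2.1⟩ with hf₂
  have hf₁0 : f₁ ≠ 0 := fun h => hg₁0 (congrArg Subtype.val h)
  have hf₂0 : f₂ ≠ 0 := fun h => hg₂0 (congrArg Subtype.val h)
  have hordeq : (coeffMap (residue A) y₁).order = (coeffMap (residue A) y₂).order := by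
    have := hord v
    rw [hvord _ hf₁0, hvord _ hf₂0] at this
    exact this
  set n := (coeffMap (residue A) y₂).order with hn
  have hc₂ : (coeffMap (residue A) y₂).coeff n ≠ 0 := (fun h => hg₂0 (HahnSeries.coeff_order_eq_zero.mp h))
  have hc₁ : (coeffMap (residue A) y₁).coeff n ≠ 0 := by
    rw [← hordeq]; exact (fun h => hg₁0 (HahnSeries.coeff_order_eq_zero.mp h))
  obtain ⟨c, hc⟩ := residue_surjective
    ((coeffMap (residue A) y₁).coeff n / (coeffMap (residue A) y₂).coeff n)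
  refine ⟨c, by rw [hc]; exact div_ne_zero hc₁ hc₂, ?_⟩
  by_contra hne
  have hg₃0 : coeffMap (residue A) (y₁ - HahnSeries.C c * y₂) ≠ 0 := by
    rw [map_sub]
    exact sub_ne_zero.mpr hne
  have hy₃ : coeffMap A.subtype (y₁ - HahnSeries.C c * y₂) ∈ 𝔽 := by
    rw [map_sub, map_mul, coeffMap_C']
    exact sub_mem h₁.1 (mul_mem (C_mem_intermediate _ _) h₂.1)
  have hyk₃ : coeffMap (residue A) (y₁ - HahnSeries.C c * y₂) ∈ 𝔽' := by
    rw [map_sub, map_mul, coeffMap_C']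
    exact sub_mem h₁.2.1 (mul_mem (C_mem_intermediate _ _) h₂.2.1)
  obtain ⟨D₃, h₃, hdeg₃⟩ := exists_isDivOf _ hy₃ hyk₃ hg₃0
  set f₃ : 𝔽' := ⟨_, hyk₃⟩ with hf₃
  have hf₃0 : f₃ ≠ 0 := fun h => hg₃0 (congrArg Subtype.val h)
  have hf₃eq : f₃ = f₁ - algebraMap 𝕜 𝔽' (residue A c) * f₂ := by
    apply Subtype.ext
    show coeffMap (residue A) (y₁ - HahnSeries.C c * y₂) =
      coeffMap (residue A) y₁ - algebraMap 𝕜 (LaurentSeries 𝕜) (residue A c) *
        coeffMap (residue A) y₂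
    rw [map_sub, map_mul, coeffMap_C', algebraMap_laurentSeries_eq_single]
    rfl
  set G : Divisor 𝕜 𝔽' := Finsupp.mapDomain r D₃ - Finsupp.mapDomain r D₂ with hG
  have hGQ : ∀ Q, G Q = Q.ord f₃ - Q.ord f₂ := by
    intro Q
    rw [hG, Finsupp.sub_apply, hr.2 _ h₃.1 h₃.2.1 h₃.2.2.1 D₃ h₃.2.2.2 Q,
      hr.2 _ h₂.1 h₂.2.1 h₂.2.2.1 D₂ h₂.2.2.2 Q]
  have hGdeg : Divisor.degree G = 0 := by
    rw [hG, map_sub, degree_mapDomain_of_deg_eq hr.1, degree_mapDomain_of_deg_eq hr.1, hdeg₃,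
      h₂.degree_eq_zero, sub_zero]
  have hGnonneg : ∀ Q, 0 ≤ G Q := by
    intro Q
    have h1 : Q.ord (f₃ / f₂) = Q.ord f₃ - Q.ord f₂ := by
      rw [div_eq_mul_inv, Q.ord_mul hf₃0 (inv_ne_zero hf₂0), Q.ord_inv]
      ring
    have h2 : Q.ord (f₁ / f₂) = 0 := by
      rw [div_eq_mul_inv, Q.ord_mul hf₁0 (inv_ne_zero hf₂0), Q.ord_inv, hord Q]
      ring
    have h3 : f₃ / f₂ = f₁ / f₂ - algebraMap 𝕜 𝔽' (residue A c) := by
      rw [hf₃eq]
      field_simp
    rw [hGQ, ← h1, h3]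
    exact ord_nonneg_of_mem Q (sub_mem (mem_of_ord_nonneg Q h2.ge) (Q.algebraMap_mem' _))
  have hGv : 0 < G v := by
    rw [hGQ, hvord _ hf₃0, hvord _ hf₂0]
    show 0 < (coeffMap (residue A) (y₁ - HahnSeries.C c * y₂)).order -
      (coeffMap (residue A) y₂).order
    rw [← hn]
    have h4 : ∀ i ≤ n, (coeffMap (residue A) (y₁ - HahnSeries.C c * y₂)).coeff i = 0 := by
      intro i hi
      rw [map_sub, map_mul, coeffMap_C', HahnSeries.coeff_sub, HahnSeries.C_mul_eq_smul,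
        HahnSeries.coeff_smul, hc, smul_eq_mul]
      rcases hi.lt_or_eq with hlt | rfl
      · rw [HahnSeries.coeff_eq_zero_of_lt_order (by rw [hordeq]; exact hlt),
          HahnSeries.coeff_eq_zero_of_lt_order hlt]
        simp
      · field_simp
        simp
    by_contra hle
    exact hg₃0 (HahnSeries.coeff_order_eq_zero.mp (h4 _ (by omega)))
  have := degree_pos_of_nonneg G hGnonneg v hGv (by omega)
  omega

end Constant

section IntLemmas

variable (A : ValuationSubring Kb)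

theorem isInt_coeffMap_subtype (y : LaurentSeries A) : IsInt A (coeffMap A.subtype y) :=
  fun n => (y.coeff n).2

theorem isPrim_coeffMap_subtype {y : LaurentSeries A} (hy : coeffMap (residue A) y ≠ 0) :
    IsPrim A (coeffMap A.subtype y) := by
  refine ⟨isInt_coeffMap_subtype A y, ?_⟩
  by_contra hcon
  push Not at hcon
  apply hy
  ext n
  have h1 : ((y.coeff n : A) : Kb) ∈ A.nonunits := hcon n
  rw [ValuationSubring.coe_mem_nonunits_iff] at h1
  rw [coeffMap_coeff, HahnSeries.coeff_zero]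
  exact (residue_eq_zero_iff _).mpr h1

theorem cong_coeffMap_subtype {y y' : LaurentSeries A}
    (h : coeffMap (residue A) y = coeffMap (residue A) y') :
    Cong A (coeffMap A.subtype y) (coeffMap A.subtype y') := by
  intro n
  have h1 : residue A (y.coeff n - y'.coeff n) = 0 := by
    have := congrArg (fun s => s.coeff n) h
    simp only [coeffMap_coeff] at this
    rw [map_sub, this, sub_self]
  rw [residue_eq_zero_iff, ← ValuationSubring.coe_mem_nonunits_iff] at h1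
  exact h1

end IntLemmas

section Main

variable {A : ValuationSubring Kb} {N : ℕ} [NeZero N]

local notation "𝔽" => modularFunctionFieldBar N
local notation "𝕜" => ResidueField A
local notation "𝔽'" => modularFunctionFieldFullC (ResidueField A) N

omit [NeZero N] in
theorem IsDivOf.mem_principal {D : Divisor Kb 𝔽} {y : LaurentSeries A} (h : IsDivOf D y) :
    D ∈ Divisor.principal (K := Kb) (F := 𝔽) :=
  ⟨⟨_, h.1⟩, fun h0 => coeffMap_subtype_ne_zero h.2.2.1 (congrArg Subtype.val h0), h.2.2.2⟩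

open Fermat.Agent.S24.Zeros in
/-- **Injectivity of reduction on `m`-torsion**, from the crux lemma. -/
theorem eq_zero_of_reductionPic0Along_eq_zero
    {r : Place Kb 𝔽 → Place 𝕜 𝔽'} (hr : IsPlaceReductionAlong A (residue A) N r)
    (hgen : PrincipalGeneratedByIntegral A (residue A) N)
    {m : ℕ} (hm : 0 < m) (hcrux : CruxFor A 𝔽 m)
    (z : JZero N) (hmz : m • z = 0) (hz : reductionPic0Along r hr hgen z = 0) : z = 0 := by
  classical
  obtain ⟨D, rfl⟩ := Pic0.mk_surjective z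
  have h1 : m • (D : Divisor Kb 𝔽) ∈ Divisor.principal (K := Kb) (F := 𝔽) := by
    have h : Pic0.mk (m • D) = 0 := hmz
    have h' := (QuotientAddGroup.eq_zero_iff _).mp h
    rw [AddSubgroup.mem_addSubgroupOf] at h'
    exact h'
  have h2 : Finsupp.mapDomain r (D : Divisor Kb 𝔽) ∈ Divisor.principal (K := 𝕜) (F := 𝔽') := by
    rw [reductionPic0Along_mk] at hz
    have h' := (QuotientAddGroup.eq_zero_iff _).mp hz
    rw [AddSubgroup.mem_addSubgroupOf] at h'
    exact h'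
  obtain ⟨g, hg0, hg⟩ := h2
  obtain ⟨a, b, ha, hb, hb0, hgab⟩ := exists_div_of_mem_FF N g.2
  have ha0 : a ≠ 0 := by
    rintro rfl
    rw [zero_div] at hgab
    exact hg0 (Subtype.ext hgab)
  have hle : Algebra.adjoin 𝕜 (divisorExpansionsC 𝕜 N) ≤ (𝔽').toSubalgebra :=
    IntermediateField.algebra_adjoin_le_adjoin _ _
  obtain ⟨ya, hya, hyaF⟩ := exists_lift_of_mem_adjoin A N ha
  obtain ⟨yb, hyb, hybF⟩ := exists_lift_of_mem_adjoin A N hb
  obtain ⟨Ea, hEa, -⟩ := exists_isDivOf ya hyaF (by rw [hya]; exact hle ha) (by rw [hya]; exact ha0)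
  obtain ⟨Eb, hEb, -⟩ := exists_isDivOf yb hybF (by rw [hyb]; exact hle hb) (by rw [hyb]; exact hb0)
  set D' : Divisor Kb 𝔽 := (D : Divisor Kb 𝔽) - Ea + Eb with hD'
  have hD'r : Finsupp.mapDomain r D' = 0 := by
    ext Q
    rw [hD', Finsupp.mapDomain_add, Finsupp.mapDomain_sub, Finsupp.add_apply, Finsupp.sub_apply,
      hg, hr.2 _ hEa.1 hEa.2.1 hEa.2.2.1 Ea hEa.2.2.2 Q, hr.2 _ hEb.1 hEb.2.1 hEb.2.2.1 Eb hEb.2.2.2 Q,
      Finsupp.zero_apply]
    have hfa0 : (⟨coeffMap (residue A) ya, hEa.2.1⟩ : 𝔽') ≠ 0 :=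
      fun h => hEa.2.2.1 (congrArg Subtype.val h)
    have hfb0 : (⟨coeffMap (residue A) yb, hEb.2.1⟩ : 𝔽') ≠ 0 :=
      fun h => hEb.2.2.1 (congrArg Subtype.val h)
    have hgeq : g = (⟨coeffMap (residue A) ya, hEa.2.1⟩ : 𝔽') *
        (⟨coeffMap (residue A) yb, hEb.2.1⟩ : 𝔽')⁻¹ := by
      apply Subtype.ext
      show (g : LaurentSeries 𝕜) = coeffMap (residue A) ya * (coeffMap (residue A) yb)⁻¹
      rw [hgab, hya, hyb, div_eq_mul_inv]
    rw [hgeq, Q.ord_mul hfa0 (inv_ne_zero hfb0), Q.ord_inv]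
    ring
  have hD'prin : m • D' ∈ Divisor.principal (K := Kb) (F := 𝔽) := by
    have : m • D' = m • (D : Divisor Kb 𝔽) - m • Ea + m • Eb := by
      rw [hD', smul_add, smul_sub]
    rw [this]
    exact add_mem (sub_mem h1 (nsmul_mem hEa.mem_principal m)) (nsmul_mem hEb.mem_principal m)
  obtain ⟨D₁, D₂, y₁, y₂, hy₁, hy₂, hD12⟩ := exists_sub_of_mem_closure (hgen hD'prin)
  have hord : ∀ Q : Place 𝕜 𝔽', Q.ord (⟨_, hy₁.2.1⟩ : 𝔽') = Q.ord (⟨_, hy₂.2.1⟩ : 𝔽') := by
    intro Q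
    have h0 : Finsupp.mapDomain r (m • D') = 0 := by
      rw [← Finsupp.mapDomain.addMonoidHom_apply, map_nsmul, Finsupp.mapDomain.addMonoidHom_apply,
        hD'r, smul_zero]
    rw [hD12, Finsupp.mapDomain_sub] at h0
    have h3 := congrArg (fun E => E Q) h0
    simp only [Finsupp.sub_apply, Finsupp.zero_apply] at h3
    rw [hr.2 _ hy₁.1 hy₁.2.1 hy₁.2.2.1 D₁ hy₁.2.2.2 Q,
      hr.2 _ hy₂.1 hy₂.2.1 hy₂.2.2.1 D₂ hy₂.2.2.2 Q] at h3
    omega
  obtain ⟨c, hc0, hc⟩ := exists_const_of_ord_eq hr hy₁ hy₂ hord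
  have hbF : coeffMap A.subtype (HahnSeries.C c * y₂) ∈ 𝔽 := by
    rw [map_mul, coeffMap_C']
    exact mul_mem (C_mem_intermediate _ _) hy₂.1
  have hcK : (c : Kb) ≠ 0 := by
    intro h
    apply hc0
    have : c = 0 := Subtype.ext h
    rw [this, map_zero]
  have hbeq : (⟨coeffMap A.subtype (HahnSeries.C c * y₂), hbF⟩ : 𝔽) =
      algebraMap Kb 𝔽 (c : Kb) * ⟨coeffMap A.subtype y₂, hy₂.1⟩ := by
    apply Subtype.ext
    show coeffMap A.subtype (HahnSeries.C c * y₂) =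
      algebraMap Kb (LaurentSeries Kb) (c : Kb) * coeffMap A.subtype y₂
    rw [map_mul, coeffMap_C', algebraMap_laurentSeries_eq_single]
    rfl
  have hf₁0 : (⟨coeffMap A.subtype y₁, hy₁.1⟩ : 𝔽) ≠ 0 :=
    fun h => coeffMap_subtype_ne_zero hy₁.2.2.1 (congrArg Subtype.val h)
  have hf₂0 : (⟨coeffMap A.subtype y₂, hy₂.1⟩ : 𝔽) ≠ 0 :=
    fun h => coeffMap_subtype_ne_zero hy₂.2.2.1 (congrArg Subtype.val h)
  have hcF : algebraMap Kb 𝔽 (c : Kb) ≠ 0 := by simpa using hcK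
  have hval : ∀ v : Place Kb 𝔽, v.ord ((⟨coeffMap A.subtype y₁, hy₁.1⟩ : 𝔽) /
      ⟨coeffMap A.subtype (HahnSeries.C c * y₂), hbF⟩) = m * D' v := by
    intro v
    rw [hbeq, div_eq_mul_inv, v.ord_mul hf₁0 (inv_ne_zero (mul_ne_zero hcF hf₂0)), v.ord_inv,
      v.ord_mul hcF hf₂0, ord_algebraMap, ← hy₁.2.2.2, ← hy₂.2.2.2]
    have h3 := congrArg (fun E => E v) hD12
    simp only [Finsupp.sub_apply, Finsupp.smul_apply, nsmul_eq_mul] at h3
    rw [h3]
    ring
  obtain ⟨w, hw0, hw⟩ := hcrux _ _ hy₁.1 hbF (isPrim_coeffMap_subtype A hy₁.2.2.1)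
    (isInt_coeffMap_subtype A _) (cong_coeffMap_subtype A hc) (fun v => ⟨D' v, hval v⟩)
  have hD'w : ∀ v : Place Kb 𝔽, D' v = v.ord w := by
    intro v
    have h3 := hval v
    have hb0' : (⟨coeffMap A.subtype (HahnSeries.C c * y₂), hbF⟩ : 𝔽) ≠ 0 := by
      rw [hbeq]; exact mul_ne_zero hcF hf₂0
    rw [hw, mul_div_cancel_left₀ _ hb0', ← zpow_natCast, v.ord_zpow] at h3
    have hm' : (m : ℤ) ≠ 0 := by exact_mod_cast hm.ne'
    exact (mul_left_cancel₀ hm' h3).symm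
  have hDprin : (D : Divisor Kb 𝔽) ∈ Divisor.principal (K := Kb) (F := 𝔽) := by
    have : (D : Divisor Kb 𝔽) = D' + Ea - Eb := by
      rw [hD']; abel
    rw [this]
    exact sub_mem (add_mem ⟨w, hw0, hD'w⟩ hEa.mem_principal) hEb.mem_principal
  exact (QuotientAddGroup.eq_zero_iff _).mpr (by rwa [AddSubgroup.mem_addSubgroupOf])

end Main

end Fermat.Agent.GR.S
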