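import Fermat.Agent.GR.S.R.Iface
import Fermat.Agent.GR.S.Hecke.Inputs
import Fermat.Agent.GR.S.Hecke.Norm
import Fermat.Agent.GR.S.Hecke.CongES
import Fermat.Agent.GR.S.FF.GalPull
import Fermat.Agent.GR.S.Wiring18
import Fermat.Agent.GR.E.BR9

/-!
# GR-S: the subgroup `K₁ ⊆ J₀(N)(Q̄)` of classes of divisors with trivial reduction
-/

set_option autoImplicit false

noncomputable section

open AlgebraicCurve ModularCurve Fermat.Agent.S17.FF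

namespace Fermat.Agent.GR.S

open Fermat.Agent.GR Fermat.Agent.GR.E

local notation "𝔽" => modularFunctionFieldBar

theorem bar_le {N N' : ℕ} (h : N ∣ N') : 𝔽 N ≤ 𝔽 N' := by
  rw [bar_eq_FF, bar_eq_FF]
  exact BR8_FF_le Kb h

def inclBar {N N' : ℕ} (h : N ∣ N') : 𝔽 N →ₐ[Kb] 𝔽 N' := IntermediateField.inclusion (bar_le h)

@[simp] theorem coe_inclBar {N N' : ℕ} (h : N ∣ N') (x : 𝔽 N) :
    (inclBar h x : LaurentSeries Kb) = x := IntermediateField.coe_inclusion _ x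

def gq (N : ℕ) (σ : Kb ≃ₐ[ℚ] Kb) : SemilinearAut Kb (𝔽 N) :=
  arithmeticGalois (modularFunctionFieldFull N) σ

theorem coe_gq_smul (N : ℕ) (σ : Kb ≃ₐ[ℚ] Kb) (x : 𝔽 N) :
    ((gq N σ • x : 𝔽 N) : LaurentSeries Kb) = gal σ (x : LaurentSeries Kb) :=
  coe_arithmeticGalois_smul _ σ x

theorem intertwines_inclBar {N N' : ℕ} (h : N ∣ N') (σ : Kb ≃ₐ[ℚ] Kb) :
    SemilinearAut.IntertwinesAlong (inclBar h).toRingHom (gq N σ) (gq N' σ) :=
  fun x => Subtype.ext (by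
    rw [coe_gq_smul]
    show gal σ ((inclBar h x : 𝔽 N') : LaurentSeries Kb) = ((inclBar h (gq N σ • x) : 𝔽 N') : LaurentSeries Kb)
    rw [coe_inclBar, coe_inclBar, coe_gq_smul])


section Red

variable {N N' : ℕ} [NeZero N] [NeZero N'] (hNN' : N ∣ N') {S : Type} (r : Place Kb (𝔽 N') → S)

/-- reduction of divisors of level `N`: pull back to level `N'`, then reduce the points. -/
def Red : Divisor Kb (𝔽 N) →+ (S →₀ ℤ) :=
  (Finsupp.mapDomain.addMonoidHom r).comp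
    (Divisor.pullbackAlong (inclBar hNN') (isIntegral_along' _))

theorem Red_apply (D : Divisor Kb (𝔽 N)) :
    Red hNN' r D = Finsupp.mapDomain r
      (Divisor.pullbackAlong (inclBar hNN') (isIntegral_along' _) D) := rfl

theorem Red_divf (f : 𝔽 N) :
    Red hNN' r (divf f) = Finsupp.mapDomain r (divf (inclBar hNN' f)) := by
  rw [Red_apply, pullbackAlong_divf]

theorem l1_Red_le (D : Divisor Kb (𝔽 N)) :
    l1 (Red hNN' r D) ≤ finrankAlong Kb (inclBar hNN') * l1 D :=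
  (l1_mapDomain_le _ _).trans (l1_pullbackAlong_le _ _ _)

variable {A : ValuationSubring Kb} (hr : IsRed A (𝔽 N') r)

include hr in
/-- (h1) inertia acts trivially on reductions. -/
theorem Red_smul_of_mem_inertia {τ : Kb ≃ₐ[ℚ] Kb} (hτ : τ ∈ A.inertiaSubgroupIn ℚ)
    (D : Divisor Kb (𝔽 N)) : Red hNN' r (gq N τ • D) = Red hNN' r D := by
  rw [Red_apply, Red_apply,
    pullbackAlong_smul _ _ (gq N τ) (gq N' τ) (intertwines_inclBar hNN' τ)]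
  exact mapDomain_smul_of_invariant r _ (hr.inert τ (gq N' τ) hτ (coe_gq_smul N' τ)) _


theorem C_eq_algebraMap_bar (M : ℕ) (c : Kb) :
    ((algebraMap Kb (𝔽 M) c : 𝔽 M) : LaurentSeries Kb) = HahnSeries.C c := by
  show algebraMap Kb (LaurentSeries Kb) c = _
  rw [algebraMap_laurentSeries_eq_single]
  rfl

theorem divf_pow' {K F : Type*} [Field K] [Field F] [Algebra K F] [IsAlgClosed K] [CharZero K]
    [IsFF K F] (f : F) (m : ℕ) : divf (K := K) (f ^ m) = m • divf f := by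
  ext v
  rw [divf_apply, Finsupp.smul_apply, divf_apply, ← zpow_natCast, v.ord_zpow, nsmul_eq_mul]

include hr in
/-- (h3) a torsion class of order prime to `ℓ` with trivial reduction is trivial. -/
theorem exists_eq_divf_of_Red_eq_zero {ℓ : ℕ} (hℓ : ℓ.Prime) (hA : A.LiesOverPrime ℓ)
    (H : LaurentSeries ℤ) (hM : HasModel A N' H) (k : ℕ)
    (hk : (FF Kb N).relfinrank (FF Kb N') = ℓ ^ k) (m : ℕ) (hm : ¬ ℓ ∣ m)
    (D : Divisor Kb (𝔽 N)) (hD : Red hNN' r D = 0) (u : 𝔽 N) (hu : u ≠ 0)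
    (hmD : m • D = divf u) : ∃ y : 𝔽 N, y ≠ 0 ∧ D = divf y := by
  have hm0 : 0 < m := Nat.pos_of_ne_zero (by rintro rfl; exact hm (dvd_zero _))
  have hiu : inclBar hNN' u ≠ 0 := (map_ne_zero _).mpr hu
  have h1 : Finsupp.mapDomain r (divf (inclBar hNN' u)) = 0 := by
    rw [← Red_divf, ← hmD, map_nsmul, hD, smul_zero]
  obtain ⟨κ, a, b, hκ, hpa, hib, hab, hub⟩ :=
    hr.const (inclBar hNN' u) hiu (divf (inclBar hNN' u)) (fun P => rfl) h1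
  have ha0 : a ≠ 0 := fun h => ne_zero_of_isPrim A hpa (by rw [h]; rfl)
  have hb0 : b ≠ 0 := fun h => ne_zero_of_cong A hpa hab (by rw [h]; rfl)
  have hub' : inclBar hNN' u * b = algebraMap Kb (𝔽 N') κ * a := by
    apply Subtype.ext
    show ((inclBar hNN' u : 𝔽 N') : LaurentSeries Kb) * (b : LaurentSeries Kb) =
      ((algebraMap Kb (𝔽 N') κ : 𝔽 N') : LaurentSeries Kb) * (a : LaurentSeries Kb)
    rw [C_eq_algebraMap_bar]
    exact hub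
  have hκ' : algebraMap Kb (𝔽 N') κ ≠ 0 := (map_ne_zero _).mpr hκ
  have hcrux : CruxFor A (𝔽 N') m :=
    cruxFor_bar A N' m (crux_of_hasModel A ℓ hℓ hA N' H hM m hm)
  obtain ⟨z, hz0, hz⟩ := hcrux a b a.2 b.2 hpa hib hab (by
    intro v
    have e : (⟨(a : LaurentSeries Kb), a.2⟩ : 𝔽 N') / ⟨(b : LaurentSeries Kb), b.2⟩ =
        (algebraMap Kb (𝔽 N') κ)⁻¹ * inclBar hNN' u := by
      show a / b = _
      field_simp
      rw [mul_comm, ← hub', mul_comm]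
    rw [e, v.ord_mul (inv_ne_zero hκ') hiu, v.ord_inv, Fermat.Agent.S24.Zeros.ord_algebraMap,
      neg_zero, zero_add, ← divf_apply (K := Kb), ← pullbackAlong_divf _ (isIntegral_along' _),
      ← hmD, map_nsmul, Finsupp.smul_apply, nsmul_eq_mul]
    exact dvd_mul_right _ _)
  have hz' : a = b * z ^ m := hz
  obtain ⟨κ₁, hκ₁⟩ := IsAlgClosed.exists_pow_nat_eq κ hm0
  have hκ₁0 : κ₁ ≠ 0 := by
    rintro rfl
    rw [zero_pow hm0.ne'] at hκ₁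
    exact hκ hκ₁.symm
  have huz : inclBar hNN' u = (algebraMap Kb (𝔽 N') κ₁ * z) ^ m := by
    have : inclBar hNN' u * b = (algebraMap Kb (𝔽 N') κ₁ * z) ^ m * b := by
      rw [hub', hz', mul_pow, ← map_pow, hκ₁]
      ring
    exact mul_right_cancel₀ hb0 this
  have hdeg : Nat.Coprime m ((FF Kb N).relfinrank (FF Kb N')) := by
    rw [hk]
    exact Nat.Coprime.pow_right k ((Nat.Prime.coprime_iff_not_dvd hℓ).2 hm).symm
  obtain ⟨y, hy, hy0, hyu⟩ := BR8_pow_descent (BR8_FF_le Kb hNN') m hdeg (u : LaurentSeries Kb)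
    ((algebraMap Kb (𝔽 N') κ₁ * z : 𝔽 N') : LaurentSeries Kb) (bar_eq_FF N ▸ u.2)
    (bar_eq_FF N' ▸ (algebraMap Kb (𝔽 N') κ₁ * z : 𝔽 N').2)
    (fun h => mul_ne_zero ((map_ne_zero _).mpr hκ₁0) hz0 (Subtype.ext h))
    (by
      have := congrArg (Subtype.val) huz
      rw [coe_inclBar] at this
      exact this)
  refine ⟨⟨y, (bar_eq_FF N).symm ▸ hy⟩, fun h => hy0 (congrArg Subtype.val h), ?_⟩
  have huy : u = (⟨y, (bar_eq_FF N).symm ▸ hy⟩ : 𝔽 N) ^ m := Subtype.ext hyu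
  rw [huy, divf_pow'] at hmD
  ext v
  have := congrArg (fun E => E v) hmD
  simp only [Finsupp.smul_apply, nsmul_eq_mul] at this
  exact mul_left_cancel₀ (by exact_mod_cast hm0.ne') this


theorem gal_inv_gal (σ : Kb ≃ₐ[ℚ] Kb) (x : LaurentSeries Kb) : gal σ⁻¹ (gal σ x) = x := by
  ext n
  rw [gal_coeff, gal_coeff]
  exact σ.symm_apply_apply _

variable (N) in
/-- the operator `σ² - T_ℓ σ + ℓ` on divisors. -/
def esDiv (ℓ : ℕ) [NeZero ℓ] (σ : Kb ≃ₐ[ℚ] Kb) : Divisor Kb (𝔽 N) →+ Divisor Kb (𝔽 N) :=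
  (DistribSMul.toAddMonoidHom (Divisor Kb (𝔽 N)) (gq N σ)).comp
      (DistribSMul.toAddMonoidHom (Divisor Kb (𝔽 N)) (gq N σ)) -
    (heckeDiv N ℓ).comp (DistribSMul.toAddMonoidHom (Divisor Kb (𝔽 N)) (gq N σ)) +
    ℓ • AddMonoidHom.id _

theorem esDiv_apply (ℓ : ℕ) [NeZero ℓ] (σ : Kb ≃ₐ[ℚ] Kb) (D : Divisor Kb (𝔽 N)) :
    esDiv N ℓ σ D = gq N σ • gq N σ • D - heckeDiv N ℓ (gq N σ • D) + ℓ • D := rfl

include hr in
theorem Red_esDiv_divf {ℓ : ℕ} [NeZero ℓ] (hℓ : ℓ.Prime) (hℓN : ¬ ℓ ∣ N)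
    (hA : A.LiesOverPrime ℓ) {σ : Kb ≃ₐ[ℚ] Kb} (hσ : A.IsFrobeniusAt σ ℓ) (f : 𝔽 N)
    (hf : f ≠ 0) : Red hNN' r (esDiv N ℓ σ (divf f)) = 0 := by
  have : Fact ℓ.Prime := ⟨hℓ⟩
  obtain ⟨ζ, hζ⟩ : ∃ ζ : Kbˣ, IsPrimitiveRoot ζ ℓ := by
    obtain ⟨ζ, hζ⟩ := HasEnoughRootsOfUnity.exists_primitiveRoot Kb ℓ
    exact ⟨hζ.isUnit (NeZero.ne ℓ) |>.unit, IsPrimitiveRoot.coe_units_iff.mp (by simpa using hζ)⟩
  set f₁ : 𝔽 N := gq N σ • f with hf₁
  set f₂ : 𝔽 N := gq N σ • f₁ with hf₂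
  have hf₁0 : f₁ ≠ 0 := by
    rw [hf₁]
    exact (smul_ne_zero_iff_ne _).mpr hf
  have hf₂0 : f₂ ≠ 0 := by
    rw [hf₂]
    exact (smul_ne_zero_iff_ne _).mpr hf₁0
  set Nm : 𝔽 N := (letI := algebraAlong (heckeAlphaBar Kb N ℓ)
      Algebra.norm (𝔽 N) (heckeBetaBar Kb N ℓ f₁)) with hNm
  have hNmc : (Nm : LaurentSeries Kb) = heckeMulT ℓ ζ (f₁ : LaurentSeries Kb) :=
    norm_heckeBeta N ℓ hℓ hℓN ζ hζ f₁
  obtain ⟨κ, a, b, hκ, haF, hbF, hpa, hpb, hab, hrel⟩ :=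
    exists_cong_heckeMulT (N := N) A hA ζ hζ
      (fun u hu => Fermat.Agent.GR.B.heckeMulT_mem_FF_Qbar ℓ hℓN ζ hζ hu) hσ
      (u := (f₁ : LaurentSeries Kb)) (bar_eq_FF N ▸ f₁.2)
      (fun h => hf₁0 (Subtype.ext h))
  set a' : 𝔽 N := ⟨a, (bar_eq_FF N).symm ▸ haF⟩ with ha'
  set b' : 𝔽 N := ⟨b, (bar_eq_FF N).symm ▸ hbF⟩ with hb'
  have ha0 : a' ≠ 0 := fun h => ne_zero_of_isPrim A hpa (congrArg Subtype.val h)
  have hb0 : b' ≠ 0 := fun h => ne_zero_of_isPrim A hpb (congrArg Subtype.val h)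
  have hκ' : algebraMap Kb (𝔽 N) κ ≠ 0 := (map_ne_zero _).mpr hκ
  have hrel' : Nm * b' = algebraMap Kb (𝔽 N) κ * (f₂ * f ^ ℓ * a') := by
    apply Subtype.ext
    show (Nm : LaurentSeries Kb) * b = ((algebraMap Kb (𝔽 N) κ : 𝔽 N) : LaurentSeries Kb) *
      ((f₂ : LaurentSeries Kb) * (f : LaurentSeries Kb) ^ ℓ * a)
    rw [hNmc, hrel, C_eq_algebraMap_bar, hf₂, coe_gq_smul, hf₁, coe_gq_smul, gal_inv_gal,
      coe_gq_smul]
  have hNm0 : Nm ≠ 0 := by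
    intro h
    rw [h, zero_mul] at hrel'
    exact mul_ne_zero hκ' (mul_ne_zero (mul_ne_zero hf₂0 (pow_ne_zero _ hf)) ha0) hrel'.symm
  have hdiv : divf (K := Kb) Nm + divf b' = divf f₂ + ℓ • divf f + divf a' := by
    rw [← divf_mul hNm0 hb0, hrel', divf_mul hκ' (mul_ne_zero (mul_ne_zero hf₂0
      (pow_ne_zero _ hf)) ha0), divf_algebraMap, zero_add,
      divf_mul (mul_ne_zero hf₂0 (pow_ne_zero _ hf)) ha0, divf_mul hf₂0 (pow_ne_zero _ hf),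
      divf_pow']
  have hes : esDiv N ℓ σ (divf f) = -divf (a' / b') := by
    rw [esDiv_apply, smul_divf, smul_divf, heckeDiv_divf N ℓ _ hf₁0, div_eq_mul_inv,
      divf_mul ha0 (inv_ne_zero hb0), divf_inv]
    have e : divf (K := Kb) f₂ = divf Nm + divf b' - ℓ • divf f - divf a' := by
      rw [hdiv]; abel
    rw [e]
    abel
  rw [hes, map_neg, Red_divf, neg_eq_zero]
  refine hr.cong (inclBar hNN' a') (inclBar hNN' b') ?_ ?_ ?_ _ (fun P => ?_)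
  · rw [coe_inclBar]; exact hpa
  · rw [coe_inclBar]; exact hpb
  · rw [coe_inclBar, coe_inclBar]; exact hab
  · rw [divf_apply, map_div₀]


include hr in
/-- (h2) on divisors: `σ² - T_ℓ σ + ℓ` maps divisors of degree zero to divisors with trivial
reduction. -/
theorem Red_esDiv_eq_zero {ℓ : ℕ} [NeZero ℓ] (hℓ : ℓ.Prime) (hℓN : ¬ ℓ ∣ N)
    (hA : A.LiesOverPrime ℓ) {σ : Kb ≃ₐ[ℚ] Kb} (hσ : A.IsFrobeniusAt σ ℓ)
    (D : Divisor Kb (𝔽 N)) (hD : Divisor.degree D = 0) : Red hNN' r (esDiv N ℓ σ D) = 0 := by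
  refine eq_zero_of_bounded ((Red hNN' r).comp (esDiv N ℓ σ))
    (fun f hf => Red_esDiv_divf hNN' r hr hℓ hℓN hA hσ f hf)
    (finrankAlong Kb (inclBar hNN') * (1 + finrankAlong Kb (heckeBetaBar Kb N ℓ) * 1 + ℓ * 1))
    (fun v => ?_) D hD
  rw [AddMonoidHom.comp_apply]
  refine (l1_Red_le hNN' r _).trans (Nat.mul_le_mul_left _ ?_)
  rw [esDiv_apply, SemilinearAut.smul_single, SemilinearAut.smul_single]
  refine (l1_add_le _ _).trans (Nat.add_le_add ((l1_sub_le _ _).trans (Nat.add_le_add ?_ ?_)) ?_)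
  · rw [l1_single]; rfl
  · refine (l1_heckeDiv_le N ℓ _).trans ?_
    rw [l1_single]; rfl
  · rw [l1_nsmul, l1_single]; rfl


/-- classes of divisors of degree zero with trivial reduction. -/
def K1 : AddSubgroup (JZero N) :=
  (((Red hNN' r).comp (Divisor.degZero (K := Kb) (F := 𝔽 N)).subtype).ker).map
    (QuotientAddGroup.mk' _)

theorem mem_K1_iff (x : JZero N) :
    x ∈ K1 hNN' r ↔ ∃ D : Divisor.degZero (K := Kb) (F := 𝔽 N),
      Red hNN' r (D : Divisor Kb (𝔽 N)) = 0 ∧ Pic0.mk D = x := Iff.rfl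

include hr in
theorem smul_sub_mem_K1 {τ : Kb ≃ₐ[ℚ] Kb} (hτ : τ ∈ A.inertiaSubgroupIn ℚ) (x : JZero N) :
    τ • x - x ∈ K1 hNN' r := by
  obtain ⟨D, rfl⟩ := Pic0.mk_surjective x
  refine (mem_K1_iff hNN' r _).mpr ⟨SemilinearAut.degZeroSMulHom (gq N τ) D - D, ?_, rfl⟩
  rw [AddSubgroup.coe_sub, SemilinearAut.coe_degZeroSMulHom, map_sub,
    Red_smul_of_mem_inertia hNN' r hr hτ, sub_self]

theorem heckeOperatorBar_mk (ℓ : ℕ) [NeZero ℓ] (hℓ : ℓ.Prime)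
    (D : Divisor.degZero (K := Kb) (F := 𝔽 N)) :
    heckeOperatorBar N (⟨ℓ, hℓ⟩ : Nat.Primes) (Pic0.mk D) =
      Pic0.mk ⟨heckeDiv N ℓ D, heckeDiv_mem_degZero N ℓ D.2⟩ := by
  exact (heckeOperatorBar_apply N _ _).trans (heckeOperatorAlong_mk N ℓ D)

include hr in
theorem es_mem_K1 {ℓ : ℕ} (hℓ : ℓ.Prime) (hℓN : ¬ ℓ ∣ N)
    (hA : A.LiesOverPrime ℓ) {σ : Kb ≃ₐ[ℚ] Kb} (hσ : A.IsFrobeniusAt σ ℓ) (x : JZero N) :
    σ • σ • x - heckeOperatorBar N (⟨ℓ, hℓ⟩ : Nat.Primes) (σ • x) + ℓ • x ∈ K1 hNN' r := by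
  have : NeZero ℓ := ⟨hℓ.ne_zero⟩
  obtain ⟨D, rfl⟩ := Pic0.mk_surjective x
  have hdeg : esDiv N ℓ σ (D : Divisor Kb (𝔽 N)) ∈ Divisor.degZero (K := Kb) (F := 𝔽 N) := by
    rw [esDiv_apply]
    exact add_mem (sub_mem (SemilinearAut.smul_mem_degZero _ (SemilinearAut.smul_mem_degZero _ D.2))
      (heckeDiv_mem_degZero N ℓ (SemilinearAut.smul_mem_degZero _ D.2))) (nsmul_mem D.2 _)
  refine (mem_K1_iff hNN' r _).mpr ⟨⟨_, hdeg⟩,
    Red_esDiv_eq_zero hNN' r hr hℓ hℓN hA hσ _ (Divisor.mem_degZero.mp D.2), ?_⟩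
  have h1 : σ • Pic0.mk D = Pic0.mk (SemilinearAut.degZeroSMulHom (gq N σ) D) := rfl
  have h2 : σ • Pic0.mk (SemilinearAut.degZeroSMulHom (gq N σ) D) =
      Pic0.mk (SemilinearAut.degZeroSMulHom (gq N σ) (SemilinearAut.degZeroSMulHom (gq N σ) D)) :=
    rfl
  have h3 := heckeOperatorBar_mk ℓ hℓ (SemilinearAut.degZeroSMulHom (gq N σ) D)
  rw [h1, h2, h3]
  rfl

include hr in
theorem eq_zero_of_mem_K1 {ℓ : ℕ} (hℓ : ℓ.Prime) (hA : A.LiesOverPrime ℓ)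
    (H : LaurentSeries ℤ) (hM : HasModel A N' H) (k : ℕ)
    (hk : (FF Kb N).relfinrank (FF Kb N') = ℓ ^ k) (m : ℕ) (hm : ¬ ℓ ∣ m)
    (x : JZero N) (hx : x ∈ K1 hNN' r) (hmx : m • x = 0) : x = 0 := by
  obtain ⟨D, hD, rfl⟩ := (mem_K1_iff hNN' r _).mp hx
  have h1 : Pic0.mk (m • D) = 0 := hmx
  have h2 : ((m • D : Divisor.degZero (K := Kb) (F := 𝔽 N)) : Divisor Kb (𝔽 N)) ∈
      Divisor.principal (K := Kb) (F := 𝔽 N) := by
    have := (QuotientAddGroup.eq_zero_iff _).mp h1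
    exact this
  obtain ⟨u, hu, hDu⟩ := h2
  obtain ⟨y, hy, hDy⟩ := exists_eq_divf_of_Red_eq_zero hNN' r hr hℓ hA H hM k hk m hm
    (D : Divisor Kb (𝔽 N)) hD u hu (by
      ext v
      rw [divf_apply, ← hDu]
      rfl)
  refine (QuotientAddGroup.eq_zero_iff _).mpr ?_
  show (D : Divisor Kb (𝔽 N)) ∈ Divisor.principal (K := Kb) (F := 𝔽 N)
  exact ⟨y, hy, fun v => by rw [hDy]; rfl⟩

end Red

end Fermat.Agent.GR.S
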