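import Fermat.Agent.GR.S.Wiring18

/-!
# GR-S: the statement S18 from the crux lemma (fraction form of GR-F/GR-E)
-/

set_option autoImplicit false

open ModularCurve AlgebraicCurve

namespace Fermat.Agent.GR.S

/-- S18 from the crux lemma at `A` for the exponent `m`. -/
theorem S18_of_crux (N : ℕ) [NeZero N] {ℓ : ℕ} (A : ValuationSubring (AlgebraicClosure ℚ))
    (h : ModularCurve.ReductionInputsModL A N) (m : ℕ) (hm : ¬ ℓ ∣ m)
    (hcrux : ∀ a b : LaurentSeries Kb, a ∈ FF Kb N → b ∈ FF Kb N → IsPrim A a → IsInt A b →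
      Cong A a b → IsKummer (N := N) m (a / b) → KummerEquiv N m b a)
    (z : ModularCurve.JZero N)
    (hmz : m • z = 0) (hz : ModularCurve.reductionModL A N z = 0) :
    z = 0 := by
  have hm0 : 0 < m := Nat.pos_of_ne_zero (by rintro rfl; exact hm (dvd_zero _))
  have hz' : reductionPic0Along h.choose h.choose_spec.1 h.choose_spec.2 z = 0 := by
    rw [← reductionAlong_eq h]
    exact hz
  exact eq_zero_of_reductionPic0Along_eq_zero h.choose_spec.1 h.choose_spec.2 hm0
    (cruxFor_bar A N m hcrux) z hmz hz'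

end Fermat.Agent.GR.S
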