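import Fermat.Agent.GR.S.K1
import Fermat.Agent.GR.S.R.Main
import Fermat.Agent.GR.S.Abs37
import Fermat.Agent.Lib.Frobenius

/-!
# GR-S: S37 from `ModelExists`
-/

set_option autoImplicit false

noncomputable section

open AlgebraicCurve ModularCurve

namespace Fermat.Agent.GR.S

open Fermat.Agent.GR Fermat.Agent.GR.E

theorem S37_of_modelExists (hDm : ModelExists) (N p : ℕ) [NeZero N]
    (hcomm : HeckeOperatorsCommuteBar N) :
    letI := heckeModuleBar N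
    ∀ (_ : SMulCommClass (AlgebraicClosure ℚ ≃ₐ[ℚ] AlgebraicClosure ℚ) HeckeAlg (JZero N)),
      SpecializationExists (K := ℚ) (L := AlgebraicClosure ℚ) N p (JZero N) := by
  letI := heckeModuleBar N
  intro _ ℓ hℓ hℓNp A hA
  have hℓN : ¬ ℓ ∣ N := fun h => hℓNp (h.mul_right p)
  have hℓp : ¬ ℓ ∣ p := fun h => hℓNp (h.mul_left N)
  obtain ⟨N', H, hN'0, hNN', ⟨k, hk⟩, hM⟩ := hDm N ℓ hℓ hℓN A hA
  haveI : NeZero N' := ⟨hN'0⟩
  obtain ⟨S, r, hr⟩ := exists_isRed A ℓ hℓ hA N' hN'0 H hM (modularFunctionFieldBar N')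
    (bar_eq_FF N')
  obtain ⟨σ₀, hσ₀⟩ := Fermat.Agent.Lib.Frobenius.exists_isFrobeniusAt_of_liesOverPrime A hℓ hA
  refine exists_specialization_of_subgroup p (JZero N) A ℓ hℓ σ₀ hσ₀ (K1 hNN' r) ?_ ?_ ?_
  · intro τ hτ x
    exact smul_sub_mem_K1 hNN' r hr hτ x
  · intro x
    have h := es_mem_K1 hNN' r hr hℓ hℓN hA hσ₀ x
    have e : heckeGen (⟨ℓ, hℓ⟩ : Nat.Primes) • (σ₀ • x) =
        heckeOperatorBar N (⟨ℓ, hℓ⟩ : Nat.Primes) (σ₀ • x) :=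
      heckeModuleBar_heckeGen_smul hcomm _ _
    rw [← e] at h
    exact h
  · rintro x hx ⟨n, hn⟩
    exact eq_zero_of_mem_K1 hNN' r hr hℓ hA H hM k hk (p ^ n)
      (fun h => hℓp (hℓ.dvd_of_dvd_pow h)) x hx hn

end Fermat.Agent.GR.S
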